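import Mathlib

/-!
# S34 (wave 10), package CA: the CRT step at a closed point lying on one component (helper17)

`F` a field, `B ⊆ F` a chart, `𝔫` a prime ideal of `B` with `π ∈ 𝔫`, `V₀ ⊆ F` the valuation
ring of the OTHER component: a subring with `B ≤ V₀` in which `π` is a uniformiser
(`hunif`, `hV₀val`, `hπV₀`), whose residue field is generated by `B` (`hres`), and which does
not pass through `𝔫`: there is `c ∈ B`, `c ∉ 𝔫`, `c ∈ π V₀` (`hc`).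

* `H17One B 𝔫 π e` : `e ∈ 1 + π B_𝔫` (element form: `s (e - 1) = π b`, `s ∉ 𝔫`);
* `h17_crt` : for every `a ≠ 0` there is `e ∈ 1 + π B_𝔫` with `e ≡ a mod π a V₀`;
* `h17_LOC_two` : **the (LOC) upgrade**: the local datum `(h, s)` of the gluing theorem at `𝔫`
  with respect to `V` (a subring containing `B_𝔫`) gives the local datum with respect to
  `V ⊓ V₀`.
-/

set_option autoImplicit false

namespace Fermat.Agent.S34x.CA.H17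

variable {F : Type*} [Field F]

/-- `e ∈ 1 + π B_𝔫`, element form. -/
def H17One (B : Subring F) (𝔫 : Ideal B) (π : F) (e : F) : Prop :=
  ∃ s : B, s ∉ 𝔫 ∧ ∃ b : B, (s : F) * (e - 1) = π * b

section One

variable (B : Subring F) (𝔫 : Ideal B) [h𝔫 : 𝔫.IsPrime] (π : F) (hπB : π ∈ B)
  (hπ𝔫 : (⟨π, hπB⟩ : B) ∈ 𝔫)

omit h𝔫 in
theorem h17_coe_ne_zero {s : B} (hs : s ∉ 𝔫) : (s : F) ≠ 0 := by
  intro h
  apply hs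
  have : s = 0 := Subtype.ext h
  rw [this]
  exact 𝔫.zero_mem

theorem h17One_one : H17One B 𝔫 π 1 :=
  ⟨1, fun h => h𝔫.ne_top ((Ideal.eq_top_iff_one _).mpr h), 0, by simp⟩

include hπB in
theorem h17One_mul {e₁ e₂ : F} (h₁ : H17One B 𝔫 π e₁) (h₂ : H17One B 𝔫 π e₂) :
    H17One B 𝔫 π (e₁ * e₂) := by
  obtain ⟨s₁, hs₁, b₁, hb₁⟩ := h₁
  obtain ⟨s₂, hs₂, b₂, hb₂⟩ := h₂
  refine ⟨s₁ * s₂, fun h => (h𝔫.mem_or_mem h).elim hs₁ hs₂,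
    ⟨π, hπB⟩ * b₁ * b₂ + b₁ * s₂ + b₂ * s₁, ?_⟩
  push_cast
  linear_combination ((s₂ : F) * (e₂ - 1) + (s₂ : F)) * hb₁ + ((s₁ : F) + π * (b₁ : F)) * hb₂

include hπ𝔫 in
omit h𝔫 in
/-- an element of `1 + π B_𝔫` is `t / s` with `s, t ∉ 𝔫`. -/
theorem h17One_repr {e : F} (h : H17One B 𝔫 π e) :
    ∃ s t : B, s ∉ 𝔫 ∧ t ∉ 𝔫 ∧ (s : F) * e = t ∧ ∃ b : B, (t : F) - s = π * b := by
  obtain ⟨s, hs, b, hb⟩ := h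
  refine ⟨s, s + ⟨π, hπB⟩ * b, hs, ?_, ?_, b, ?_⟩
  · intro h
    apply hs
    have h2 : (⟨π, hπB⟩ : B) * b ∈ 𝔫 := 𝔫.mul_mem_right _ hπ𝔫
    have := 𝔫.sub_mem h h2
    simpa using this
  · push_cast
    linear_combination hb
  · push_cast
    ring

include hπ𝔫 in
omit h𝔫 in
theorem h17One_ne_zero {e : F} (h : H17One B 𝔫 π e) : e ≠ 0 := by
  obtain ⟨s, t, hs, ht, hst, -⟩ := h17One_repr B 𝔫 π hπB hπ𝔫 h
  intro h0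
  rw [h0, mul_zero] at hst
  exact h17_coe_ne_zero B 𝔫 ht hst.symm

include hπ𝔫 in
omit h𝔫 in
theorem h17One_inv {e : F} (h : H17One B 𝔫 π e) : H17One B 𝔫 π e⁻¹ := by
  obtain ⟨s, t, hs, ht, hst, b, hb⟩ := h17One_repr B 𝔫 π hπB hπ𝔫 h
  have he0 : e ≠ 0 := h17One_ne_zero B 𝔫 π hπB hπ𝔫 h
  refine ⟨t, ht, -b, ?_⟩
  push_cast
  have h1 : (t : F) * e⁻¹ = s := by
    rw [← hst]
    field_simp
  linear_combination h1 - hb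

include hπB in
theorem h17One_pow {e : F} (h : H17One B 𝔫 π e) (k : ℕ) : H17One B 𝔫 π (e ^ k) := by
  induction k with
  | zero => simpa using h17One_one B 𝔫 π
  | succ k ih =>
    rw [pow_succ]
    exact h17One_mul B 𝔫 π hπB ih h

include hπ𝔫 in
theorem h17One_zpow {e : F} (h : H17One B 𝔫 π e) (k : ℤ) : H17One B 𝔫 π (e ^ k) := by
  rcases k with k | k
  · simpa using h17One_pow B 𝔫 π hπB h k
  · rw [zpow_negSucc]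
    exact h17One_inv B 𝔫 π hπB hπ𝔫 (h17One_pow B 𝔫 π hπB h (k + 1))

end One

/-- integer powers of a unit of `V₀` are units of `V₀`. -/
theorem h17_unit_zpow (V₀ : Subring F) {u : F} (hu : u ∈ V₀) (hui : u⁻¹ ∈ V₀) (k : ℤ) :
    u ^ k ∈ V₀ ∧ (u ^ k)⁻¹ ∈ V₀ := by
  rcases k with k | k
  · refine ⟨by simpa using V₀.pow_mem hu k, ?_⟩
    have : ((u ^ (Int.ofNat k : ℤ))⁻¹ : F) = u⁻¹ ^ k := by simp
    rw [this]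
    exact V₀.pow_mem hui k
  · rw [zpow_negSucc, inv_inv]
    refine ⟨?_, V₀.pow_mem hu _⟩
    rw [← inv_pow]
    exact V₀.pow_mem hui _

section Crt

variable (B V₀ : Subring F) (𝔫 : Ideal B) [h𝔫 : 𝔫.IsPrime] (π : F) (hπB : π ∈ B)
  (hπ𝔫 : (⟨π, hπB⟩ : B) ∈ 𝔫) (hπ0 : π ≠ 0) (hBV₀ : B ≤ V₀)
  (hV₀val : ∀ y ∈ V₀, (∃ v ∈ V₀, y = π * v) ∨ y⁻¹ ∈ V₀)
  (hπV₀ : ∀ v ∈ V₀, π * v ≠ 1)

include hπB hBV₀ hV₀val hπV₀ in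
omit h𝔫 in
/-- an element `≡ 1 mod π V₀` is a unit of `V₀`. -/
theorem h17_one_add_unit {z : F} (hz : z ∈ V₀) : 1 + π * z ∈ V₀ ∧ (1 + π * z)⁻¹ ∈ V₀ := by
  have hπV : π ∈ V₀ := hBV₀ hπB
  have h1 : 1 + π * z ∈ V₀ := V₀.add_mem V₀.one_mem (V₀.mul_mem hπV hz)
  refine ⟨h1, ?_⟩
  rcases hV₀val _ h1 with ⟨v, hv, hv'⟩ | h
  · exfalso
    apply hπV₀ (v - z) (V₀.sub_mem hv hz)
    linear_combination -hv'
  · exact h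

include hπB hπ𝔫 hπ0 hBV₀ hV₀val hπV₀ in
/-- **the element `ε`**: `ε ∈ π B_𝔫` and `ε ≡ 1 mod π V₀`. -/
theorem h17_eps (hc : ∃ c : B, c ∉ 𝔫 ∧ ∃ w ∈ V₀, (c : F) = π * w) :
    ∃ ε : F, (∃ s : B, s ∉ 𝔫 ∧ (s : F) * ε = π) ∧ ∃ y ∈ V₀, ε - 1 = π * y := by
  obtain ⟨c, hc𝔫, w, hw, hcw⟩ := hc
  have hc' : (⟨π, hπB⟩ + c * c : B) ∉ 𝔫 := by
    intro h
    have := 𝔫.sub_mem h hπ𝔫
    rw [add_sub_cancel_left] at this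
    exact (h𝔫.mem_or_mem this).elim hc𝔫 hc𝔫
  have hc'0 : ((⟨π, hπB⟩ + c * c : B) : F) ≠ 0 := h17_coe_ne_zero B 𝔫 hc'
  obtain ⟨hu, hui⟩ := h17_one_add_unit B V₀ π hπB hBV₀ hV₀val hπV₀ (V₀.mul_mem hw hw)
  have hcc : ((⟨π, hπB⟩ + c * c : B) : F) = π * (1 + π * (w * w)) := by
    push_cast
    rw [hcw]
    ring
  have hu0 : (1 + π * (w * w)) ≠ 0 := by
    intro h
    rw [h, mul_zero] at hcc
    exact hc'0 hcc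
  refine ⟨π / ((⟨π, hπB⟩ + c * c : B) : F), ⟨⟨π, hπB⟩ + c * c, hc', ?_⟩,
    -(w * w) * (1 + π * (w * w))⁻¹, V₀.mul_mem (V₀.neg_mem (V₀.mul_mem hw hw)) hui, ?_⟩
  · rw [mul_div_cancel₀ _ hc'0]
  · rw [hcc]
    obtain ⟨u, hu⟩ : ∃ u : F, u = 1 + π * (w * w) := ⟨_, rfl⟩
    rw [← hu] at hu0 ⊢
    have h1 : π / (π * u) = u⁻¹ := by
      rw [div_eq_iff (mul_ne_zero hπ0 hu0)]
      field_simp
    have h2 : u * u⁻¹ = 1 := mul_inv_cancel₀ hu0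
    rw [h1]
    linear_combination (-(u⁻¹)) * hu + h2

include hπB hπ𝔫 hπ0 hBV₀ hV₀val hπV₀ in
/-- **the element `g`**: `g ∈ 1 + π B_𝔫` and `g = π * (unit of V₀)`. -/
theorem h17_g (hc : ∃ c : B, c ∉ 𝔫 ∧ ∃ w ∈ V₀, (c : F) = π * w) :
    ∃ g : F, H17One B 𝔫 π g ∧ ∃ u : F, u ∈ V₀ ∧ u⁻¹ ∈ V₀ ∧ g = π * u := by
  obtain ⟨c, hc𝔫, w, hw, hcw⟩ := hc
  have hπV : π ∈ V₀ := hBV₀ hπB
  have hc3 : (c * c * c : B) ∉ 𝔫 := fun h =>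
    (h𝔫.mem_or_mem h).elim (fun h' => (h𝔫.mem_or_mem h').elim hc𝔫 hc𝔫) hc𝔫
  have hden : (c * c * c + ⟨π, hπB⟩ : B) ∉ 𝔫 := by
    intro h
    have := 𝔫.sub_mem h hπ𝔫
    rw [add_sub_cancel_right] at this
    exact hc3 this
  have hden0 : ((c * c * c + ⟨π, hπB⟩ : B) : F) ≠ 0 := h17_coe_ne_zero B 𝔫 hden
  have hw3 : w * w * w ∈ V₀ := V₀.mul_mem (V₀.mul_mem hw hw) hw
  obtain ⟨hn, hni⟩ := h17_one_add_unit B V₀ π hπB hBV₀ hV₀val hπV₀ hw3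
  obtain ⟨hd, hdi⟩ := h17_one_add_unit B V₀ π hπB hBV₀ hV₀val hπV₀ (V₀.mul_mem hπV hw3)
  have hdenF : ((c * c * c + ⟨π, hπB⟩ : B) : F) = π * (1 + π * (π * (w * w * w))) := by
    push_cast
    rw [hcw]
    ring
  have hd0 : (1 + π * (π * (w * w * w))) ≠ 0 := by
    intro h
    rw [h, mul_zero] at hdenF
    exact hden0 hdenF
  have hn0 : (1 + π * (w * w * w)) ≠ 0 := by
    intro h
    have := hni
    have h1 : (1 : F) = π * (-(w * w * w)) := by linear_combination h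
    exact hπV₀ _ (V₀.neg_mem hw3) h1.symm
  obtain ⟨D, hD⟩ : ∃ D : F, D = ((c * c * c + ⟨π, hπB⟩ : B) : F) := ⟨_, rfl⟩
  obtain ⟨n₁, hn₁⟩ : ∃ n₁ : F, n₁ = 1 + π * (w * w * w) := ⟨_, rfl⟩
  obtain ⟨d₁, hd₁⟩ : ∃ d₁ : F, d₁ = 1 + π * (π * (w * w * w)) := ⟨_, rfl⟩
  rw [← hD] at hden0 hdenF
  rw [← hn₁] at hn hni hn0
  rw [← hd₁] at hd hdi hd0 hdenF
  have hDD : D * D⁻¹ = 1 := mul_inv_cancel₀ hden0
  have hdd : d₁ * d₁⁻¹ = 1 := mul_inv_cancel₀ hd0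
  have hDi : D⁻¹ * π = d₁⁻¹ := by
    rw [hdenF, mul_inv, mul_assoc, mul_comm d₁⁻¹ π, ← mul_assoc, inv_mul_cancel₀ hπ0, one_mul]
  refine ⟨1 - π * (1 - π) * D⁻¹,
    ⟨c * c * c + ⟨π, hπB⟩, hden, -(1 - ⟨π, hπB⟩), ?_⟩,
    n₁ * d₁⁻¹, V₀.mul_mem hn hdi, ?_, ?_⟩
  · rw [← hD]
    push_cast
    linear_combination (-(π * (1 - π))) * hDD
  · rw [mul_inv, inv_inv]
    exact V₀.mul_mem hni hd
  · -- `1 - π (1 - π) / D = π n₁ / d₁`, `D = π d₁`, `d₁ - (1 - π) = π n₁`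
    have h3 : d₁ - (1 - π) = π * n₁ := by rw [hd₁, hn₁]; ring
    linear_combination (-(1 - π)) * hDi + (d₁⁻¹) * h3 - hdd

include hπB hπ𝔫 hπ0 hBV₀ hV₀val hπV₀ in
/-- **CRT, unit case**: for a unit `a` of `V₀` there is `e ∈ 1 + π B_𝔫` with
`e ≡ a mod π V₀`. -/
theorem h17_crt_unit (hc : ∃ c : B, c ∉ 𝔫 ∧ ∃ w ∈ V₀, (c : F) = π * w)
    (hres : ∀ w ∈ V₀, ∃ b₁ b₂ : B, (b₂ : F) ≠ 0 ∧ (b₂ : F)⁻¹ ∈ V₀ ∧
      ∃ y ∈ V₀, w * (b₂ : F) - b₁ = π * y)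
    (a : F) (ha : a ∈ V₀) :
    ∃ e : F, H17One B 𝔫 π e ∧ ∃ y ∈ V₀, e - a = π * y := by
  classical
  have hπV : π ∈ V₀ := hBV₀ hπB
  obtain ⟨ε, ⟨s, hs, hsε⟩, yε, hyε, hε1⟩ := h17_eps B V₀ 𝔫 π hπB hπ𝔫 hπ0 hBV₀ hV₀val hπV₀ hc
  obtain ⟨c, hc𝔫, w, hw, hcw⟩ := hc
  obtain ⟨b₁, b₂, hb₂0, hb₂i, y, hy, hab⟩ := hres a ha
  -- a denominator outside `𝔫`
  obtain ⟨b₂', hb₂'𝔫, hb₂'i, y', hy', hab'⟩ : ∃ b₂' : B, b₂' ∉ 𝔫 ∧ (b₂' : F)⁻¹ ∈ V₀ ∧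
      ∃ y' ∈ V₀, a * (b₂' : F) - b₁ = π * y' := by
    by_cases hb₂ : b₂ ∈ 𝔫
    · refine ⟨b₂ + c, ?_, ?_, y + a * w, V₀.add_mem hy (V₀.mul_mem ha hw), ?_⟩
      · intro h
        apply hc𝔫
        have := 𝔫.sub_mem h hb₂
        rwa [add_sub_cancel_left] at this
      · -- `b₂ + c = b₂ (1 + π w / b₂)`
        obtain ⟨h1, h1i⟩ := h17_one_add_unit B V₀ π hπB hBV₀ hV₀val hπV₀
          (V₀.mul_mem hw hb₂i)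
        have : ((b₂ + c : B) : F)⁻¹ = (b₂ : F)⁻¹ * (1 + π * (w * (b₂ : F)⁻¹))⁻¹ := by
          push_cast
          rw [hcw, ← mul_inv]
          congr 1
          have h2 : (b₂ : F) * (b₂ : F)⁻¹ = 1 := mul_inv_cancel₀ hb₂0
          linear_combination (-(π * w)) * h2
        rw [this]
        exact V₀.mul_mem hb₂i h1i
      · push_cast
        rw [hcw]
        linear_combination hab
    · exact ⟨b₂, hb₂, hb₂i, y, hy, hab⟩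
  have hb₂'0 : (b₂' : F) ≠ 0 := h17_coe_ne_zero B 𝔫 hb₂'𝔫
  have hs0 : (s : F) ≠ 0 := h17_coe_ne_zero B 𝔫 hs
  -- `e'' = b₁ / b₂'`, `e = 1 + (e'' - 1) ε`
  refine ⟨1 + ((b₁ : F) / b₂' - 1) * ε,
    ⟨b₂' * s, fun h => (h𝔫.mem_or_mem h).elim hb₂'𝔫 hs, b₁ - b₂', ?_⟩,
    -(y' * (b₂' : F)⁻¹) + ((b₁ : F) * (b₂' : F)⁻¹ - 1) * yε, ?_, ?_⟩
  · push_cast
    have h2 : (b₂' : F) * (b₂' : F)⁻¹ = 1 := mul_inv_cancel₀ hb₂'0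
    rw [div_eq_mul_inv]
    linear_combination ((b₁ : F) - b₂') * hsε + ((s : F) * ε * (b₁ : F)) * h2
  · refine V₀.add_mem (V₀.neg_mem (V₀.mul_mem hy' hb₂'i)) (V₀.mul_mem ?_ hyε)
    exact V₀.sub_mem (V₀.mul_mem (hBV₀ b₁.2) hb₂'i) V₀.one_mem
  · have h2 : (b₂' : F) * (b₂' : F)⁻¹ = 1 := mul_inv_cancel₀ hb₂'0
    rw [div_eq_mul_inv]
    linear_combination (-(b₂' : F)⁻¹) * hab' + ((b₁ : F) * (b₂' : F)⁻¹ - 1) * hε1 + a * h2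

include hπB hπ𝔫 hπ0 hBV₀ hV₀val hπV₀ in
/-- **CRT**: for every `a ≠ 0` there is `e ∈ 1 + π B_𝔫` with `e ≡ a mod π a V₀`. -/
theorem h17_crt
    (hunif : ∀ a : F, a ≠ 0 → ∃ (k : ℤ) (u : F), u ∈ V₀ ∧ u⁻¹ ∈ V₀ ∧ a = π ^ k * u)
    (hc : ∃ c : B, c ∉ 𝔫 ∧ ∃ w ∈ V₀, (c : F) = π * w)
    (hres : ∀ w ∈ V₀, ∃ b₁ b₂ : B, (b₂ : F) ≠ 0 ∧ (b₂ : F)⁻¹ ∈ V₀ ∧
      ∃ y ∈ V₀, w * (b₂ : F) - b₁ = π * y)
    (a : F) (ha : a ≠ 0) :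
    ∃ e : F, H17One B 𝔫 π e ∧ ∃ y ∈ V₀, e - a = π * a * y := by
  obtain ⟨g, hg1, u₁, hu₁, hu₁i, hgu⟩ := h17_g B V₀ 𝔫 π hπB hπ𝔫 hπ0 hBV₀ hV₀val hπV₀ hc
  obtain ⟨k, u, hu, hui, hak⟩ := hunif a ha
  have hg0 : g ≠ 0 := h17One_ne_zero B 𝔫 π hπB hπ𝔫 hg1
  have hgk0 : g ^ k ≠ 0 := zpow_ne_zero k hg0
  have hπk0 : π ^ k ≠ 0 := zpow_ne_zero k hπ0
  obtain ⟨huk, huki⟩ := h17_unit_zpow V₀ hu₁ hu₁i k
  have hu0 : u ≠ 0 := by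
    intro h
    rw [h, mul_zero] at hak
    exact ha hak
  have hu₁k0 : u₁ ^ k ≠ 0 := by
    intro h
    apply hgk0
    rw [hgu, mul_zpow, h, mul_zero]
  -- `a' = a / g ^ k = u / u₁ ^ k`
  have ha' : u * (u₁ ^ k)⁻¹ ∈ V₀ := V₀.mul_mem hu huki
  have ha'i : u⁻¹ * u₁ ^ k ∈ V₀ := V₀.mul_mem hui huk
  obtain ⟨e₁, he₁, y, hy, hey⟩ :=
    h17_crt_unit B V₀ 𝔫 π hπB hπ𝔫 hπ0 hBV₀ hV₀val hπV₀ hc hres _ ha'
  refine ⟨e₁ * g ^ k, h17One_mul B 𝔫 π hπB he₁ (h17One_zpow B 𝔫 π hπB hπ𝔫 hg1 k),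
    u⁻¹ * u₁ ^ k * y, V₀.mul_mem ha'i hy, ?_⟩
  have h1 : g ^ k = π ^ k * u₁ ^ k := by rw [hgu, mul_zpow]
  have h2 : u * u⁻¹ = 1 := mul_inv_cancel₀ hu0
  have h3 : u₁ ^ k * (u₁ ^ k)⁻¹ = 1 := mul_inv_cancel₀ hu₁k0
  rw [h1, hak]
  linear_combination (π ^ k * u₁ ^ k) * hey + (π ^ k * u) * h3
    - (π * π ^ k * u₁ ^ k * y) * h2

end Crt

section LOC

variable (B V V₀ : Subring F) (𝔫 : Ideal B) [h𝔫 : 𝔫.IsPrime] (π : F) (hπB : π ∈ B)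
  (hπ𝔫 : (⟨π, hπB⟩ : B) ∈ 𝔫) (hπ0 : π ≠ 0) (hBV : B ≤ V) (hBV₀ : B ≤ V₀)
  (hV𝔫 : ∀ s : B, s ∉ 𝔫 → (s : F)⁻¹ ∈ V) (hπV : ∀ v ∈ V, π * v ≠ 1)
  (hV₀val : ∀ y ∈ V₀, (∃ v ∈ V₀, y = π * v) ∨ y⁻¹ ∈ V₀)
  (hπV₀ : ∀ v ∈ V₀, π * v ≠ 1)

include hπB hπ𝔫 hπ0 hBV hBV₀ hV𝔫 hπV hV₀val hπV₀ in
/-- **The (LOC) upgrade at a closed point on one component**: `𝔫` a prime of the chart `B`
with `π ∈ 𝔫`, `V ⊇ B_𝔫` the valuation ring of the component through `𝔫`, `V₀` the valuation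
ring of the other component (`π` a uniformiser, residue field generated by `B`, some
`c ∈ B ∖ 𝔫` with `c ∈ π V₀`).  A local datum `(h, s)` for `f` with `h ≡ 1 mod π V` can be
changed into one with `h ≡ 1 mod π (V ⊓ V₀)`. -/
theorem h17_LOC_two
    (hunif : ∀ a : F, a ≠ 0 → ∃ (k : ℤ) (u : F), u ∈ V₀ ∧ u⁻¹ ∈ V₀ ∧ a = π ^ k * u)
    (hc : ∃ c : B, c ∉ 𝔫 ∧ ∃ w ∈ V₀, (c : F) = π * w)
    (hres : ∀ w ∈ V₀, ∃ b₁ b₂ : B, (b₂ : F) ≠ 0 ∧ (b₂ : F)⁻¹ ∈ V₀ ∧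
      ∃ y ∈ V₀, w * (b₂ : F) - b₁ = π * y)
    (m : ℕ) (f : F)
    (hloc : ∃ (h : F) (s : B), s ∉ 𝔫 ∧ (∃ c ∈ V, h - 1 = π * c) ∧ (s : F) * f * h ^ m ∈ B) :
    ∃ (h : F) (s : B), s ∉ 𝔫 ∧ (∃ c ∈ V ⊓ V₀, h - 1 = π * c) ∧ (s : F) * f * h ^ m ∈ B := by
  obtain ⟨h₁, s₁, hs₁, ⟨c₁, hc₁, hh₁⟩, hmem⟩ := hloc
  have hπV' : π ∈ V := hBV hπB
  have hh₁0 : h₁ ≠ 0 := by
    intro h
    apply hπV (-c₁) (V.neg_mem hc₁)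
    rw [h] at hh₁
    linear_combination hh₁
  obtain ⟨e, he, y, hy, hey⟩ :=
    h17_crt B V₀ 𝔫 π hπB hπ𝔫 hπ0 hBV₀ hV₀val hπV₀ hunif hc hres h₁⁻¹ (inv_ne_zero hh₁0)
  obtain ⟨s, t, hs, ht, hst, b, hb⟩ := h17One_repr B 𝔫 π hπB hπ𝔫 he
  have hs0 : (s : F) ≠ 0 := h17_coe_ne_zero B 𝔫 hs
  have hss : (s : F) * (s : F)⁻¹ = 1 := mul_inv_cancel₀ hs0
  have hhh : h₁ * h₁⁻¹ = 1 := mul_inv_cancel₀ hh₁0
  have hsi : (s : F)⁻¹ ∈ V := hV𝔫 s hs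
  -- `e = t / s ∈ V`
  have heq : e = (t : F) * (s : F)⁻¹ := by
    linear_combination (s : F)⁻¹ * hst - e * hss
  have heV : e ∈ V := by
    rw [heq]
    exact V.mul_mem (hBV t.2) hsi
  -- `π y = h₁ e - 1`
  have hπy : h₁ * e - 1 = π * y := by
    linear_combination h₁ * hey + (1 + π * y) * hhh
  have hyV : y ∈ V := by
    have h1 : y = c₁ * e + (b : F) * (s : F)⁻¹ := by
      apply mul_left_cancel₀ hπ0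
      have h2 : (s : F) * (e - 1) = π * b := by
        rw [mul_sub, mul_one, hst]
        exact hb
      linear_combination -hπy + e * hh₁ + (s : F)⁻¹ * h2 - (e - 1) * hss
    rw [h1]
    exact V.add_mem (V.mul_mem hc₁ heV) (V.mul_mem (hBV b.2) hsi)
  refine ⟨h₁ * e, s₁ * s ^ m, ?_, ⟨y, ⟨hyV, hy⟩, hπy⟩, ?_⟩
  · intro h
    rcases h𝔫.mem_or_mem h with h' | h'
    · exact hs₁ h'
    · exact hs (h𝔫.mem_of_pow_mem m h')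
  · have h1 : ((s₁ * s ^ m : B) : F) * f * (h₁ * e) ^ m =
        ((s₁ : F) * f * h₁ ^ m) * ((t : F)) ^ m := by
      push_cast
      rw [← hst]
      ring
    rw [h1]
    exact B.mul_mem hmem (B.pow_mem t.2 m)

end LOC

section Dvr

/-- `hunif` for a discrete valuation subring whose maximal ideal is `(π)` (in the `hVval` /
`hπV` spelling of `S18x.Dict.H20`). -/
theorem h17_hunif_of_dvr (V₀ : ValuationSubring F) [IsDiscreteValuationRing V₀] (π : F)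
    (hπmem : π ∈ V₀)
    (hV₀val : ∀ y ∈ V₀, (∃ v ∈ V₀, y = π * v) ∨ y⁻¹ ∈ V₀)
    (hπV₀ : ∀ v ∈ V₀, π * v ≠ 1) :
    ∀ a : F, a ≠ 0 → ∃ (k : ℤ) (u : F), u ∈ V₀.toSubring ∧ u⁻¹ ∈ V₀.toSubring ∧
      a = π ^ k * u := by
  classical
  -- `π` is irreducible in `V₀`
  obtain ⟨ϖ, hϖ⟩ := IsDiscreteValuationRing.exists_irreducible V₀
  have hπirr : Irreducible (⟨π, hπmem⟩ : V₀) := by
    have hϖnu : ¬ IsUnit ϖ := hϖ.not_isUnit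
    rcases hV₀val (ϖ : F) ϖ.2 with ⟨v, hv, hϖv⟩ | h
    · have hfac : ϖ = (⟨π, hπmem⟩ : V₀) * ⟨v, hv⟩ := Subtype.ext hϖv
      rcases hϖ.isUnit_or_isUnit hfac with hu | hu
      · exfalso
        obtain ⟨w, hw⟩ := hu.exists_right_inv
        exact hπV₀ (w : F) w.2 (by simpa using congrArg Subtype.val hw)
      · have hassoc : Associated ϖ (⟨π, hπmem⟩ : V₀) := by
          refine ⟨hu.unit⁻¹, ?_⟩
          rw [hfac, mul_assoc]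
          simp
        exact hassoc.irreducible hϖ
    · exfalso
      apply hϖnu
      have hϖ0 : (ϖ : F) ≠ 0 := fun h0 => hϖ.ne_zero (Subtype.ext h0)
      exact IsUnit.of_mul_eq_one (⟨(ϖ : F)⁻¹, h⟩ : V₀) (Subtype.ext (mul_inv_cancel₀ hϖ0))
  have key : ∀ x : V₀, x ≠ 0 → ∃ (n : ℕ) (u : F), u ∈ V₀.toSubring ∧ u⁻¹ ∈ V₀.toSubring ∧
      (x : F) = π ^ n * u := by
    intro x hx
    obtain ⟨n, u, hu⟩ := IsDiscreteValuationRing.eq_unit_mul_pow_irreducible hx hπirr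
    refine ⟨n, (u : V₀), (u : V₀).2, ?_, ?_⟩
    · have h1 : ((u : V₀) : F) * (((u⁻¹ : V₀ˣ) : V₀) : F) = 1 := by
        have h := congrArg Subtype.val u.mul_inv
        exact h
      rw [inv_eq_of_mul_eq_one_right h1]
      exact ((u⁻¹ : V₀ˣ) : V₀).2
    · have := congrArg Subtype.val hu
      rw [this]
      push_cast
      ring
  intro a ha
  rcases V₀.mem_or_inv_mem a with h | h
  · obtain ⟨n, u, hu, hui, hau⟩ := key ⟨a, h⟩ (fun h0 => ha (congrArg Subtype.val h0))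
    exact ⟨n, u, hu, hui, by rw [zpow_natCast]; exact hau⟩
  · obtain ⟨n, u, hu, hui, hau⟩ := key ⟨a⁻¹, h⟩
      (fun h0 => inv_ne_zero ha (congrArg Subtype.val h0))
    refine ⟨-n, u⁻¹, hui, by rwa [inv_inv], ?_⟩
    have hau' : a⁻¹ = π ^ n * u := hau
    have h1 : a = (a⁻¹)⁻¹ := (inv_inv a).symm
    rw [h1, hau', mul_inv, zpow_neg, zpow_natCast]

end Dvr

end Fermat.Agent.S34x.CA.H17
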