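import Mathlib

/-!
# S34 (wave 10), package CA: the normality lemma (helper17)

`F` a field, `B ⊆ F` a subring, `π ∈ B`, `π ≠ 0`.

* `h17_normal_step` : if `B / π B` is reduced (element form), `y` is integral over `B` and
  `π y ∈ B`, then `y ∈ B`;
* `h17_normal` : if `B / π B` is reduced and every element of `F` integral over `B` lies in
  `B[1/π]` (element form: `π ^ k * x ∈ B` for some `k`), then `B` is integrally closed in `F`;
* `h17_normal_of_isReduced` : the same with `IsReduced (B ⧸ Ideal.span {π})`;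
* `h17_normal_of_le` : the same with `B[1/π]` given as an integrally closed subring `B' ⊇ B`
  all of whose elements have a `π`-power multiple in `B`.

No noetherian hypothesis, no domain hypothesis beyond `B ⊆ F`.
-/

set_option autoImplicit false

open Polynomial

namespace Fermat.Agent.S34x.CA.H17

variable {F : Type*} [Field F]

/-- In a commutative ring: if `a` is a root of a monic polynomial `q` of degree `d` all of whose
lower coefficients are divisible by `π`, then `π ∣ a ^ d`. -/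
theorem h17_dvd_pow_of_root {R : Type*} [CommRing R] (π a : R) (q : R[X]) (hq : q.Monic)
    (hco : ∀ i : ℕ, i < q.natDegree → π ∣ q.coeff i) (hroot : q.eval a = 0) :
    π ∣ a ^ q.natDegree := by
  rw [Polynomial.eval_eq_sum_range, Finset.sum_range_succ, hq.coeff_natDegree, one_mul] at hroot
  have h1 : a ^ q.natDegree = -∑ i ∈ Finset.range q.natDegree, q.coeff i * a ^ i := by
    linear_combination hroot
  rw [h1]
  apply (dvd_neg).mpr
  apply Finset.dvd_sum
  intro i hi
  exact Dvd.dvd.mul_right (hco i (Finset.mem_range.mp hi)) _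

/-- **One step**: `B / π B` reduced, `y` integral over `B`, `π y ∈ B` imply `y ∈ B`. -/
theorem h17_normal_step (B : Subring F) (π : F) (hπB : π ∈ B) (hπ0 : π ≠ 0)
    (hred : ∀ a ∈ B, ∀ d : ℕ, 0 < d → (∃ b ∈ B, a ^ d = π * b) → ∃ b ∈ B, a = π * b)
    (y : F) (hy : IsIntegral B y) (hπy : π * y ∈ B) : y ∈ B := by
  classical
  obtain ⟨p, hp, hpy⟩ := hy
  set π' : B := ⟨π, hπB⟩ with hπ'
  set a' : B := ⟨π * y, hπy⟩ with ha'
  have hroot : eval₂ (algebraMap B F) (algebraMap B F π' * y) (scaleRoots p π') = 0 :=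
    scaleRoots_eval₂_eq_zero (algebraMap B F) hpy
  have hroot' : (scaleRoots p π').eval a' = 0 := by
    have h1 : algebraMap B F π' * y = algebraMap B F a' := rfl
    rw [h1, eval₂_at_apply] at hroot
    exact (FaithfulSMul.algebraMap_injective B F) (by rw [hroot, map_zero])
  have hmon : (scaleRoots p π').Monic := (monic_scaleRoots_iff π').mpr hp
  have hdeg : (scaleRoots p π').natDegree = p.natDegree := natDegree_scaleRoots p π'
  have hd0 : 0 < p.natDegree := by
    rcases Nat.eq_zero_or_pos p.natDegree with h0 | h0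
    · exfalso
      have hp1 : p = 1 := by
        have := hp.natDegree_eq_zero.mp h0
        exact this
      rw [hp1] at hpy
      simp at hpy
    · exact h0
  have hdvd : π' ∣ a' ^ (scaleRoots p π').natDegree := by
    apply h17_dvd_pow_of_root π' a' _ hmon _ hroot'
    intro i hi
    rw [coeff_scaleRoots]
    rw [hdeg] at hi
    have : 0 < p.natDegree - i := by omega
    exact Dvd.dvd.mul_left (dvd_pow_self π' (by omega)) _
  rw [hdeg] at hdvd
  obtain ⟨c, hc⟩ := hdvd
  obtain ⟨b, hb, hab⟩ := hred (π * y) hπy p.natDegree hd0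
    ⟨c, c.2, by simpa using congrArg Subtype.val hc⟩
  have hyb : y = b := mul_left_cancel₀ hπ0 hab
  rw [hyb]
  exact hb

/-- **The normality lemma** (element form): `B / π B` reduced and `B[1/π]` integrally closed
in `F` imply `B` integrally closed in `F`. -/
theorem h17_normal (B : Subring F) (π : F) (hπB : π ∈ B) (hπ0 : π ≠ 0)
    (hred : ∀ a ∈ B, ∀ d : ℕ, 0 < d → (∃ b ∈ B, a ^ d = π * b) → ∃ b ∈ B, a = π * b)
    (hgen : ∀ x : F, IsIntegral B x → ∃ k : ℕ, π ^ k * x ∈ B)
    (x : F) (hx : IsIntegral B x) : x ∈ B := by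
  obtain ⟨k, hk⟩ := hgen x hx
  induction k generalizing x with
  | zero => simpa using hk
  | succ k ih =>
    have hπint : IsIntegral B (π ^ k) := by
      have : π ^ k = algebraMap B F (⟨π, hπB⟩ ^ k) := by rw [map_pow]; rfl
      rw [this]
      exact isIntegral_algebraMap
    have hy : IsIntegral B (π ^ k * x) := hπint.mul hx
    have hπy : π * (π ^ k * x) ∈ B := by
      have : π * (π ^ k * x) = π ^ (k + 1) * x := by ring
      rw [this]
      exact hk
    exact ih x hx (h17_normal_step B π hπB hπ0 hred _ hy hπy)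

/-- The element form of "`B / π B` is reduced" from `IsReduced`. -/
theorem h17_hred_of_isReduced (B : Subring F) (π : F) (hπB : π ∈ B)
    (h : IsReduced (B ⧸ Ideal.span {(⟨π, hπB⟩ : B)})) :
    ∀ a ∈ B, ∀ d : ℕ, 0 < d → (∃ b ∈ B, a ^ d = π * b) → ∃ b ∈ B, a = π * b := by
  intro a ha d _ ⟨b, hb, hab⟩
  have h1 : (Ideal.Quotient.mk (Ideal.span {(⟨π, hπB⟩ : B)}) ⟨a, ha⟩) ^ d = 0 := by
    rw [← map_pow, Ideal.Quotient.eq_zero_iff_mem, Ideal.mem_span_singleton']
    exact ⟨⟨b, hb⟩, Subtype.ext (by rw [mul_comm]; exact hab.symm)⟩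
  have h2 : Ideal.Quotient.mk (Ideal.span {(⟨π, hπB⟩ : B)}) ⟨a, ha⟩ = 0 :=
    (IsNilpotent.eq_zero ⟨d, h1⟩)
  rw [Ideal.Quotient.eq_zero_iff_mem, Ideal.mem_span_singleton'] at h2
  obtain ⟨c, hc⟩ := h2
  exact ⟨c, c.2, by rw [mul_comm]; exact (congrArg Subtype.val hc).symm⟩

/-- **The normality lemma** with `IsReduced (B ⧸ (π))`. -/
theorem h17_normal_of_isReduced (B : Subring F) (π : F) (hπB : π ∈ B) (hπ0 : π ≠ 0)
    (h : IsReduced (B ⧸ Ideal.span {(⟨π, hπB⟩ : B)}))
    (hgen : ∀ x : F, IsIntegral B x → ∃ k : ℕ, π ^ k * x ∈ B)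
    (x : F) (hx : IsIntegral B x) : x ∈ B :=
  h17_normal B π hπB hπ0 (h17_hred_of_isReduced B π hπB h) hgen x hx

/-- **The normality lemma** with `B[1/π]` given as a subring `B'`: `B ≤ B'`, `B'` integrally
closed in `F`, every element of `B'` has a `π`-power multiple in `B`. -/
theorem h17_normal_of_le (B B' : Subring F) (hBB' : B ≤ B') (π : F) (hπB : π ∈ B) (hπ0 : π ≠ 0)
    (hred : ∀ a ∈ B, ∀ d : ℕ, 0 < d → (∃ b ∈ B, a ^ d = π * b) → ∃ b ∈ B, a = π * b)
    (hic' : ∀ y : F, IsIntegral B' y → y ∈ B')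
    (hloc : ∀ y ∈ B', ∃ k : ℕ, π ^ k * y ∈ B)
    (x : F) (hx : IsIntegral B x) : x ∈ B := by
  apply h17_normal B π hπB hπ0 hred _ x hx
  intro z hz
  apply hloc z (hic' z _)
  obtain ⟨p, hp, hpz⟩ := hz
  refine ⟨p.map (Subring.inclusion hBB'), hp.map _, ?_⟩
  rw [eval₂_map]
  exact hpz

end Fermat.Agent.S34x.CA.H17
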